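import Fermat.Agent.S43.CH.Main
import Fermat.Agent.Crux.Main
import Fermat.Agent.ES.B.ToD
import Fermat.Agent.ES.Glue.Iota

/-!
# S43 / CH / X0 : the Cayley-Hamilton structure on `ES.Kum N n` (level `Γ₀(N)`, any exponent `n ≠ 0`)

`tOp0 N n g x = g x + χ_n(g) g⁻¹ x` on `ES.Kum N n`  (`χ_n = cyc n` the cyclotomic character mod `n`).

* `exists_central0` : `tOp0 N n g` is given by an element of the centraliser of the Galois action which moreover
                      lies in the subring generated by ... (only centrality is exported);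
* `tOp0_galKum`     : **(CH)** `tOp0 N n g` commutes with the action of `G_ℚ`;
* `tOp0_heckeKum`   : `tOp0 N n g` commutes with the Hecke operators `T_ℓ`;
* `tOp0_add`, `tOp0_zero`, `tOp0Hom` : additivity.
No hypothesis: CRUX (`Crux.crux`) and finiteness (`ES.Glue.finite_Kum`) are in the library for every exponent.
-/

set_option autoImplicit false

open AlgebraicCurve ModularCurve

namespace Fermat.Agent.S43.CH

open Fermat.Agent.ES

noncomputable section

variable (N : ℕ) [NeZero N] (n : ℕ) [NeZero n]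

/-- `t(g) = g + χ_n(g) g⁻¹` on `ES.Kum N n`. -/
def tOp0 (g : GQ) (x : Kum N n) : Kum N n :=
  galKum N n g x + (((cyc n g : (ZMod n)ˣ) : ZMod n)).val • galKum N n g⁻¹ x

theorem finiteLevel_galRepZ0 : GaloisFactorsThroughFiniteLevel (galRepZ N n) := by
  have : Finite (Kum N n) := Fermat.Agent.ES.Glue.finite_Kum (Nat.pos_of_ne_zero (NeZero.ne n))
  choose L hL hfix using (galKum_smooth N n)
  refine ⟨⨆ x, L x, inferInstance, fun σ hσ => ?_⟩
  ext x
  exact hfix x σ fun y hy => hσ y (le_iSup L x hy)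

theorem val_nsmul_eq0 {a : ZMod n} {b : ℕ} (h : a = (b : ZMod n)) (y : Kum N n) :
    a.val • y = b • y := by
  rw [← Nat.cast_smul_eq_nsmul (ZMod n) a.val y, ← Nat.cast_smul_eq_nsmul (ZMod n) b y,
    ZMod.natCast_zmod_val, h]

/-- `tOp0` is given by an element of the centraliser of the Galois action. -/
theorem exists_central0 (g : GQ) :
    ∃ Z ∈ Subring.centralizer (Set.range (galRepZ N n)), ∀ x, tOp0 N n g x = Z x := by
  have hn : n ≠ 0 := NeZero.ne n
  have hN : N ≠ 0 := NeZero.ne N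
  obtain ⟨ℓ, A, φ, hℓ, hℓT, hA, hφ, -, -, ⟨j, hj⟩⟩ :=
    Fermat.Agent.FD.exists_frobenius_of_finiteLevel
      ((galRepZ N n).prod (cyc n))
      (Fermat.Agent.FD.factorsThroughFiniteLevel_prod _ _ (finiteLevel_galRepZ0 N n)
        (cyc_finiteLevel n)) g (N * n).primeFactors
  have hℓN : ¬ ℓ ∣ N := fun h =>
    hℓT (Nat.mem_primeFactors.2 ⟨hℓ, h.mul_right n, mul_ne_zero hN hn⟩)
  have hℓn : ¬ ℓ ∣ n := fun h =>
    hℓT (Nat.mem_primeFactors.2 ⟨hℓ, h.mul_left N, mul_ne_zero hN hn⟩)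
  have : NeZero ℓ := ⟨hℓ.ne_zero⟩
  have e1 : galRepZ N n g = galRepZ N n φ ^ j := congrArg Prod.fst hj
  have e2 : cyc n g = cyc n φ ^ j := congrArg Prod.snd hj
  have e5 : ((cyc n g : (ZMod n)ˣ) : ZMod n) = ((ℓ ^ j : ℕ) : ZMod n) := by
    rw [e2, Units.val_pow_eq_pow_val, cyc_frob n hℓ hℓn A hA φ hφ, Nat.cast_pow]
  set ρ := galRepZ N n with hρ
  set C := Subring.centralizer (Set.range ρ) with hC
  have hinv1 : ρ φ * ρ φ⁻¹ = 1 := by rw [← map_mul, mul_inv_cancel, map_one]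
  have hinv2 : ρ φ⁻¹ * ρ φ = 1 := by rw [← map_mul, inv_mul_cancel, map_one]
  set Dd : Module.End ℤ (Kum N n) := (ℓ : ℤ) • 1 with hDd
  have hDρ : ∀ h : GQ, ρ h * Dd = Dd * ρ h := fun h => by
    rw [hDd, mul_smul_comm, smul_mul_assoc, mul_one, one_mul]
  have hDC : Dd ∈ C := by
    rw [hC, Subring.mem_centralizer_iff]
    rintro _ ⟨h, rfl⟩
    exact hDρ h
  have hTC : (heckeKum N ℓ hℓ hℓN n).toIntLinearMap ∈ C := by
    rw [hC, Subring.mem_centralizer_iff]
    rintro _ ⟨h, rfl⟩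
    exact LinearMap.ext fun x => galKum_heckeKum N ℓ hℓ hℓN h x
  set F := ρ φ with hF
  set G := Dd * ρ φ⁻¹ with hG
  have hFG : F * G = Dd := by
    rw [hG, ← mul_assoc, hDρ φ, mul_assoc, hinv1, mul_one]
  have hGF : G * F = Dd := by
    rw [hG, mul_assoc, hinv2, mul_one]
  have hsum : F + G = (heckeKum N ℓ hℓ hℓN n).toIntLinearMap := by
    ext y
    have h := eichlerShimura_Kum hn hℓ hℓN (Fermat.Agent.Crux.crux N ℓ n hℓ hℓN hℓn) A hA φ hφ
      (galKum N n φ⁻¹ y)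
    have h1 : galKum N n φ (galKum N n φ⁻¹ y) = y := by
      rw [← galKum_mul, mul_inv_cancel, galKum_one]
    rw [h1] at h
    have h2 : (F + G) y = galKum N n φ y + ℓ • (galKum N n φ⁻¹ y) := by
      show galKum N n φ y + ((ℓ : ℤ) • (1 : Module.End ℤ (Kum N n))) (galKum N n φ⁻¹ y) = _
      rw [LinearMap.smul_apply, natCast_zsmul]
      rfl
    rw [h2, AddMonoidHom.coe_toIntLinearMap]
    rw [← sub_eq_zero, ← h]
    abel
  refine ⟨F ^ j + G ^ j, lucas_mem C F G (hFG ▸ hDC) (hGF.trans hFG.symm) (hsum ▸ hTC) j,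
    fun x => ?_⟩
  have hg' : ρ g⁻¹ = ρ φ⁻¹ ^ j := by
    have a1 : ρ g * ρ φ⁻¹ ^ j = 1 := by
      rw [e1, ← map_pow, ← map_pow, ← map_mul, inv_pow, mul_inv_cancel, map_one]
    calc ρ g⁻¹ = ρ g⁻¹ * (ρ g * ρ φ⁻¹ ^ j) := by rw [a1, mul_one]
      _ = ρ φ⁻¹ ^ j := by rw [← mul_assoc, ← map_mul, inv_mul_cancel, map_one, one_mul]
  have hGj : G ^ j = ((ℓ ^ j : ℕ) : ℤ) • (ρ φ⁻¹ ^ j) := by
    have hc : Commute Dd (ρ φ⁻¹) := (hDρ φ⁻¹).symm
    rw [hG, hc.mul_pow, hDd, smul_pow, smul_mul_assoc, Nat.cast_pow, one_pow, one_mul]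
  rw [tOp0, val_nsmul_eq0 N n e5, LinearMap.add_apply, hGj, LinearMap.smul_apply, natCast_zsmul,
    ← hg', ← e1]
  rfl

/-- **(CH)**: `t(g)` commutes with the Galois action. -/
theorem tOp0_galKum (g h : GQ) (x : Kum N n) :
    galKum N n h (tOp0 N n g x) = tOp0 N n g (galKum N n h x) := by
  obtain ⟨Z, hZ, hZx⟩ := exists_central0 N n g
  rw [hZx, hZx]
  have := (Subring.mem_centralizer_iff.1 hZ) (galRepZ N n h) ⟨h, rfl⟩
  exact congrArg (fun f : Module.End ℤ (Kum N n) => f x) this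

/-- `t(g)` is additive. -/
theorem tOp0_add (g : GQ) (x y : Kum N n) : tOp0 N n g (x + y) = tOp0 N n g x + tOp0 N n g y := by
  simp only [tOp0, map_add, smul_add]
  abel

theorem tOp0_zero (g : GQ) : tOp0 N n g 0 = 0 := by
  simp only [tOp0, map_zero, smul_zero, add_zero]

/-- `t(g)` as an additive map. -/
def tOp0Hom (g : GQ) : Kum N n →+ Kum N n where
  toFun := tOp0 N n g
  map_zero' := tOp0_zero N n g
  map_add' := tOp0_add N n g

@[simp] theorem tOp0Hom_apply (g : GQ) (x : Kum N n) : tOp0Hom N n g x = tOp0 N n g x := rfl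

/-- `t(g)` commutes with every additive map commuting with the Galois action. -/
theorem tOp0_comm_of_comm (T : Kum N n →+ Kum N n)
    (hT : ∀ (h : GQ) (x : Kum N n), galKum N n h (T x) = T (galKum N n h x)) (g : GQ)
    (x : Kum N n) : T (tOp0 N n g x) = tOp0 N n g (T x) := by
  simp only [tOp0, map_add, map_nsmul, hT]

/-- `t(g)` commutes with the Hecke operators. -/
theorem tOp0_heckeKum {ℓ : ℕ} [NeZero ℓ] (hℓ : ℓ.Prime) (hℓN : ¬ ℓ ∣ N) (g : GQ) (x : Kum N n) :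
    heckeKum N ℓ hℓ hℓN n (tOp0 N n g x) = tOp0 N n g (heckeKum N ℓ hℓ hℓN n x) :=
  tOp0_comm_of_comm N n _ (fun h y => galKum_heckeKum N ℓ hℓ hℓN h y) g x

/-- `t(g⁻¹) = χ(g)⁻¹ t(g)`, in the form `χ(g) t(g⁻¹) = t(g)`. -/
theorem val_smul_tOp0_inv (g : GQ) (x : Kum N n) :
    (((cyc n g : (ZMod n)ˣ) : ZMod n)).val • tOp0 N n g⁻¹ x = tOp0 N n g x := by
  have h1 : ∀ (a b : ZMod n) (y : Kum N n), a.val • b.val • y = (a * b).val • y := by
    intro a b y
    rw [← Nat.cast_smul_eq_nsmul (ZMod n) a.val, ← Nat.cast_smul_eq_nsmul (ZMod n) b.val,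
      ← Nat.cast_smul_eq_nsmul (ZMod n) (a * b).val, ZMod.natCast_zmod_val, ZMod.natCast_zmod_val,
      ZMod.natCast_zmod_val, smul_smul]
  rw [tOp0, tOp0, smul_add, h1, inv_inv, map_inv, ← Units.val_mul, mul_inv_cancel, Units.val_one,
    add_comm]
  congr 1
  rw [← Nat.cast_smul_eq_nsmul (ZMod n) (1 : ZMod n).val, ZMod.natCast_zmod_val, one_smul]

end

end Fermat.Agent.S43.CH
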