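import Fermat.Agent.S31.Cyclo
import Fermat.Agent.S31.Core
import Fermat.Agent.ES.Defs
import Fermat.Agent.Lib.FrobDensity.Apps

/-!
# S43 / CH / Cyc : the cyclotomic character mod `n` (arbitrary `n ≠ 0`)

`cyc n : GQ →* (ZMod n)ˣ` with `g z = z ^ (cyc n g).val` for `z ^ n = 1`  (same proofs as `S44.Soft.om`, `n` prime).
-/

set_option autoImplicit false

namespace Fermat.Agent.S43.CH

open Fermat.Agent.ES

theorem exists_cyc (n : ℕ) [NeZero n] : ∃ om : GQ →* (ZMod n)ˣ,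
    ∀ (g : GQ) (z : Qb), z ^ n = 1 → g z = z ^ (((om g : (ZMod n)ˣ) : ZMod n)).val := by
  have hn : n ≠ 0 := NeZero.ne n
  obtain ⟨ζ, hζ⟩ := HasEnoughRootsOfUnity.exists_primitiveRoot Qb n
  have hex : ∀ g : GQ, ∃ e : ℕ, ∀ z : Qb, z ^ n = 1 → g z = z ^ e := by
    intro g
    have h1 : (g ζ) ^ n = 1 := by rw [← map_pow, hζ.pow_eq_one, map_one]
    obtain ⟨e, -, he⟩ := hζ.eq_pow_of_pow_eq_one h1
    refine ⟨e, fun z hz => ?_⟩
    obtain ⟨i, -, rfl⟩ := hζ.eq_pow_of_pow_eq_one hz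
    rw [map_pow, ← he, ← pow_mul, ← pow_mul, mul_comm]
  choose e he using hex
  have huniq : ∀ (g : GQ) (k : ℕ), g ζ = ζ ^ k → (e g : ZMod n) = (k : ZMod n) := by
    intro g k hk
    rw [ZMod.natCast_eq_natCast_iff]
    apply Fermat.Agent.S31.modEq_of_pow_eq hn hζ
    rw [← he g ζ hζ.pow_eq_one, hk]
  let c : GQ →* ZMod n :=
    { toFun := fun g => (e g : ZMod n)
      map_one' := by
        rw [huniq 1 1 (by simp), Nat.cast_one]
      map_mul' := fun g h => by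
        rw [← Nat.cast_mul]
        apply huniq
        rw [AlgEquiv.mul_apply, he h ζ hζ.pow_eq_one, map_pow, he g ζ hζ.pow_eq_one, ← pow_mul] }
  refine ⟨c.toHomUnits, fun g z hz => ?_⟩
  show g z = z ^ ((e g : ZMod n)).val
  rw [ZMod.val_natCast, he g z hz]
  exact pow_eq_pow_mod _ hz

/-- the cyclotomic character mod `n`. -/
noncomputable def cyc (n : ℕ) [NeZero n] : GQ →* (ZMod n)ˣ := (exists_cyc n).choose

theorem cyc_spec (n : ℕ) [NeZero n] (g : GQ) (z : Qb) (hz : z ^ n = 1) :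
    g z = z ^ (((cyc n g : (ZMod n)ˣ) : ZMod n)).val := (exists_cyc n).choose_spec g z hz

theorem cyc_eq_of (n : ℕ) [NeZero n] (g : GQ) (e : ℕ) (he : ∀ z : Qb, z ^ n = 1 → g z = z ^ e) :
    ((cyc n g : (ZMod n)ˣ) : ZMod n) = (e : ZMod n) := by
  have hn : n ≠ 0 := NeZero.ne n
  obtain ⟨ζ, hζ⟩ := HasEnoughRootsOfUnity.exists_primitiveRoot Qb n
  rw [← ZMod.natCast_zmod_val ((cyc n g : (ZMod n)ˣ) : ZMod n), ZMod.natCast_eq_natCast_iff]
  apply Fermat.Agent.S31.modEq_of_pow_eq hn hζ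
  rw [← cyc_spec n g ζ hζ.pow_eq_one, he ζ hζ.pow_eq_one]

theorem cyc_finiteLevel (n : ℕ) [NeZero n] : GaloisFactorsThroughFiniteLevel (cyc n) := by
  have hn : n ≠ 0 := NeZero.ne n
  obtain ⟨ζ, hζ⟩ := HasEnoughRootsOfUnity.exists_primitiveRoot Qb n
  have hζint : IsIntegral ℚ ζ :=
    ⟨Polynomial.X ^ n - 1, Polynomial.monic_X_pow_sub_C 1 hn, by simp [hζ.pow_eq_one]⟩
  refine ⟨IntermediateField.adjoin ℚ {ζ}, IntermediateField.adjoin.finiteDimensional hζint,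
    fun σ hσ => ?_⟩
  have h1 : σ ζ = ζ := hσ ζ (IntermediateField.mem_adjoin_simple_self ℚ ζ)
  apply Units.ext
  rw [cyc_eq_of n σ 1 (fun z hz => ?_), Nat.cast_one, Units.val_one]
  obtain ⟨i, -, rfl⟩ := hζ.eq_pow_of_pow_eq_one hz
  rw [map_pow, h1, pow_one]

theorem cyc_frob (n : ℕ) [NeZero n] {ℓ : ℕ} (hℓ : ℓ.Prime) (hnd : ¬ ℓ ∣ n)
    (A : ValuationSubring Qb) (hA : A.LiesOverPrime ℓ) (φ : GQ) (hφ : A.IsFrobeniusAt φ ℓ) :
    ((cyc n φ : (ZMod n)ˣ) : ZMod n) = (ℓ : ZMod n) :=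
  cyc_eq_of n φ ℓ fun _ hz => Fermat.Agent.S31.frob_apply_root A hℓ hA φ hφ hnd hz

end Fermat.Agent.S43.CH
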