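import Fermat.Agent.S43.CH.Main
import Fermat.Agent.S48.Gal.Geometry

/-!
# S43 / CH / F1 : the Cayley-Hamilton structure on `KK = Kum Qb (F1Q N).F (p ^ a)`   (function field of `X₁(N)`)

* `HH N hN`        : the Hecke data of `F1(N)` (`= S48.An1.hData (x1Data N hN)`), independent of the exponent;
* `preservesDm_F1`, `finite_F1`, `crux1_F1` : `T_ℓ` preserves `n ∣ div`, finiteness (any exponent `n > 0`), CRUX for `n = p ^ a`;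
* `ch_F1`          : **(CH)** `t(g) = g + χ_n(g) ⟨χ_N(g)⟩ g⁻¹` commutes with `G_ℚ` on `KK`;
* `es_F1`          : Eichler-Shimura on `KK`;  `unram_F1` : inertia at `ℓ ∤ N p` acts trivially on `KK`.
-/

set_option autoImplicit false

open AlgebraicCurve ModularCurve

namespace Fermat.Agent.S43.CH

open Fermat.Agent.ES Fermat.Agent.S48 Fermat.Agent.S48.B1 Fermat.Agent.S48.X1

noncomputable section

variable (N : ℕ) [NeZero N] (hN : 5 ≤ N)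

/-- the Hecke data of `F1(N)`. -/
def HH : HeckeData (F1Q N) N := An1.hData (x1Data N hN)

include hN

theorem preservesDm_F1 {n : ℕ} (hn : 0 < n) : (HH N hN).PreservesDm n :=
  (An1.an1Out hN hn).preservesDm (An1.HasChar1.isGood hN hn) (An1.HasChar1.divBy hN hn)

theorem finite_F1 {n : ℕ} (hn : 0 < n) : Finite (Kum Qb (F1Q N).F n) :=
  (An1.an1Out hN hn).finite_Kum hn.ne'

theorem crux1_F1 {p : ℕ} (hp : p.Prime) (a : ℕ) (ℓ : ℕ) (hℓ : ℓ.Prime) (hℓN : ¬ ℓ ∣ N)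
    (hℓp : ℓ ≠ p) : Crux1 (F1Q N) ℓ (p ^ a) :=
  crux1_pow (F1Q N) ℓ p hp.ne_zero
    (crux1_F1Q N hN (Gal.hasPacks_F1 N hN) ℓ p hℓ hℓN hp (fun h => hℓp h.symm)) a

theorem crux1_F1' {p : ℕ} (hp : p.Prime) {a : ℕ} (ha : a ≠ 0) (ℓ : ℕ) (hℓ : ℓ.Prime)
    (hℓN : ¬ ℓ ∣ N) (hℓn : ¬ ℓ ∣ p ^ a) : Crux1 (F1Q N) ℓ (p ^ a) :=
  crux1_F1 N hN hp a ℓ hℓ hℓN (fun h => hℓn (h ▸ dvd_pow_self ℓ ha))

/-- **(CH) on `KK`.** -/
theorem ch_F1 {p : ℕ} (hp : p.Prime) {a : ℕ} (ha : a ≠ 0) [NeZero (p ^ a)] (g h : GQ)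
    (x : Kum Qb (F1Q N).F (p ^ a)) :
    galKum (F1Q N) (p ^ a) h (tOp (HH N hN) (p ^ a) g x)
      = tOp (HH N hN) (p ^ a) g (galKum (F1Q N) (p ^ a) h x) := by
  haveI := finite_F1 N hN (pow_pos hp.pos a)
  exact tOp_galKum (HH N hN) (p ^ a) (preservesDm_F1 N hN (pow_pos hp.pos a))
    (crux1_F1' N hN hp ha) g h x

/-- Eichler-Shimura on `KK`. -/
theorem es_F1 {p : ℕ} (hp : p.Prime) (a : ℕ) (P : D.GoodPrime N) (hPp : P.1 ≠ p)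
    (A : ValuationSubring Qb) (hA : A.LiesOverPrime P.1) (φ : GQ) (hφ : A.IsFrobeniusAt φ P.1)
    (x : Kum Qb (F1Q N).F (p ^ a)) :
    galKum (F1Q N) (p ^ a) φ (galKum (F1Q N) (p ^ a) φ x)
      - heckeKum (HH N hN) (preservesDm_F1 N hN (pow_pos hp.pos a)) P (galKum (F1Q N) (p ^ a) φ x)
      + P.1 • diaKum (HH N hN) (p ^ a) (gpUnit P) x = 0 :=
  eichlerShimura_Kum (HH N hN) _ (pow_pos hp.pos a).ne' P
    (crux1_F1 N hN hp a P.1 P.2.1 P.2.2 hPp) A hA φ hφ x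

/-- inertia at `ℓ ∤ N p` acts trivially on `KK`. -/
theorem unram_F1 {p : ℕ} (hp : p.Prime) (a : ℕ) (ℓ : ℕ) (hℓ : ℓ.Prime) (hℓN : ¬ ℓ ∣ N)
    (hℓp : ℓ ≠ p) (A : ValuationSubring Qb) (hA : A.LiesOverPrime ℓ) (σ : GQ)
    (hσ : σ ∈ A.inertiaSubgroupIn ℚ) (x : Kum Qb (F1Q N).F (p ^ a)) :
    galKum (F1Q N) (p ^ a) σ x = x :=
  galKum_of_mem_inertia (pow_pos hp.pos a).ne' (crux1_F1 N hN hp a ℓ hℓ hℓN hℓp) A hA σ hσ x

end

end Fermat.Agent.S43.CH
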