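import Fermat.Agent.S48.B1.Output
import Fermat.Agent.Crux.PrimeToM

/-!
# S43 / CH / Crux : CRUX for a `QField` is multiplicative in the exponent

Port of `Crux.crux_mul` (level `Γ₀(N)`) to an arbitrary `S48.B1.QField`.

* `crux1_mul` : `Crux1 Q ℓ d → Crux1 Q ℓ m' → Crux1 Q ℓ (d * m')`
* `crux1_pow` : `Crux1 Q ℓ p → Crux1 Q ℓ (p ^ k)`
-/

set_option autoImplicit false

open AlgebraicCurve ModularCurve

namespace Fermat.Agent.S43.CH

open Fermat.Agent.ES Fermat.Agent.S48.B1 Fermat.Agent.Crux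

noncomputable section

/-- **Multiplicativity of CRUX in the exponent**, for a `QField`. -/
theorem crux1_mul (Q : QField) (ℓ d m' : ℕ) (hd0 : d ≠ 0) (hd : Crux1 Q ℓ d)
    (hm' : Crux1 Q ℓ m') : Crux1 Q ℓ (d * m') := by
  intro A hA y₁ y₂ h₁ h₂ hred hne hdiv
  set ι := coeffMap A.subtype with hι
  set ρ := coeffMap (IsLocalRing.residue A) with hρ
  have hπ := isUnit_of_residue_ne_zero A
  have hy₂ : ι y₂ ≠ 0 := by
    intro h
    apply hne
    have : y₂ = 0 := coeffMap_subtype_injective A (by rw [← hι, h, map_zero])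
    rw [this, map_zero]
  have hy₂' : (⟨_, h₂⟩ : Q.F) ≠ 0 := fun h => hy₂ (congrArg Subtype.val h)
  have hy₁ : ι y₁ ≠ 0 := by
    intro h
    apply hne
    have : y₁ = 0 := coeffMap_subtype_injective A (by rw [← hι, h, map_zero])
    rw [← hred, this, map_zero]
  have hy₁' : (⟨_, h₁⟩ : Q.F) ≠ 0 := fun h => hy₁ (congrArg Subtype.val h)
  -- first extraction
  obtain ⟨s, hs⟩ := hd A hA y₁ y₂ h₁ h₂ hred hne
    (fun P => dvd_trans (by exact_mod_cast dvd_mul_right d m') (hdiv P))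
  have hs0 : s ≠ 0 := by
    rintro rfl
    rw [zero_pow hd0] at hs
    exact div_ne_zero hy₁' hy₂' hs.symm
  obtain ⟨c, a, b, hc, ha, hb, ha', hb', hsab⟩ := Q.exists_integral_fraction A s hs0
  rw [algebraMap_eq_C] at hsab
  -- the relation between `d`-th powers
  have hs' : (s : LaurentSeries Qb) ^ d * ι y₂ = ι y₁ := by
    have : s ^ d * (⟨_, h₂⟩ : Q.F) = ⟨_, h₁⟩ := by rw [hs, div_mul_cancel₀ _ hy₂']
    exact congrArg Subtype.val this
  have hrel : HahnSeries.C (c ^ d) * ι (a ^ d * y₂) = ι (y₁ * b ^ d) := by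
    rw [map_mul, map_mul, map_pow, map_pow, map_pow, ← hs', ← mul_assoc, ← mul_pow, ← hsab]
    ring
  obtain ⟨c₁, hc₁, hc₁u⟩ := exists_unit_of_scalar A (IsLocalRing.residue A) hπ (c ^ d)
    (a ^ d * y₂) (y₁ * b ^ d)
    (by rw [map_mul, map_pow]; exact mul_ne_zero (pow_ne_zero _ ha') hne)
    (by rw [map_mul, map_pow, ← hρ, hred]; exact mul_ne_zero hne (pow_ne_zero _ hb')) hrel
  obtain ⟨c', hc', hc'u⟩ := exists_unit_of_pow A c d hd0 c₁ hc₁ hc₁u
  -- `a' = c' a`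
  set a' : LaurentSeries A := HahnSeries.C c' * a with ha'def
  have hιa' : ι a' = (s : LaurentSeries Qb) * ι b := by
    rw [ha'def, map_mul, hι, coeffMap_C, hsab]
    congr 2
  have hrel' : a' ^ d * y₂ = y₁ * b ^ d := by
    apply coeffMap_subtype_injective A
    rw [← hι, map_mul, map_mul, map_pow, map_pow, hιa', ← hs']
    ring
  have hρrel : (ρ a' / ρ b) ^ d = 1 := by
    have h1 := congrArg ρ hrel'
    rw [map_mul, map_mul, map_pow, map_pow, hred] at h1
    rw [div_pow, div_eq_one_iff_eq (pow_ne_zero _ hb')]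
    have h2 : ρ a' ^ d * ρ y₂ = ρ b ^ d * ρ y₂ := by rw [h1, mul_comm]
    exact mul_right_cancel₀ hne h2
  have : NeZero ((d : ℕ) : Qb) := ⟨by exact_mod_cast hd0⟩
  obtain ⟨z, hz⟩ := HasEnoughRootsOfUnity.exists_primitiveRoot Qb d
  obtain ⟨ζ, hζ, hζu⟩ := exists_root_lift A (IsLocalRing.residue A) d hd0 z hz _ hρrel
  -- normalise
  obtain ⟨e, rfl⟩ : ∃ e, d = e + 1 := Nat.exists_eq_succ_of_ne_zero hd0
  set a'' : LaurentSeries A := HahnSeries.C (ζ ^ e) * a' with ha''def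
  set s'' : Q.F := algebraMap Qb Q.F ((ζ : Qb) ^ e) * s with hs''def
  have hιa'' : ι a'' = (s'' : LaurentSeries Qb) * ι b := by
    rw [ha''def, map_mul, hιa', hι, coeffMap_C, hs''def, ← mul_assoc]
    congr 2
    show _ = algebraMap Qb (LaurentSeries Qb) ((ζ : Qb) ^ e)
    rw [algebraMap_eq_C]
    rfl
  have hbne : ι b ≠ 0 := by
    intro h
    apply hb'
    have : b = 0 := coeffMap_subtype_injective A (by rw [← hι, h, map_zero])
    rw [this, map_zero]
  have hbne' : (⟨_, hb⟩ : Q.F) ≠ 0 := fun h => hbne (congrArg Subtype.val h)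
  have ha''mem : ι a'' ∈ Q.E := by
    rw [hιa'']
    exact mul_mem s''.2 hb
  have hs''eq : (⟨_, ha''mem⟩ : Q.F) / ⟨_, hb⟩ = s'' := by
    rw [div_eq_iff hbne']
    exact Subtype.ext hιa''
  have hρa'' : ρ a'' = ρ b := by
    rw [ha''def, map_mul, hρ, coeffMap_C, ← hρ]
    have h1 : ρ a' = HahnSeries.C (IsLocalRing.residue A ζ) * ρ b := by
      rw [← hζu, div_mul_cancel₀ _ hb']
    rw [h1, ← mul_assoc, ← map_mul, ← map_mul, ← pow_succ, hζ, map_one, map_one, one_mul]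
  have hs''pow : s'' ^ (e + 1) = (⟨_, h₁⟩ : Q.F) / ⟨_, h₂⟩ := by
    rw [hs''def, mul_pow, hs, ← map_pow, ← pow_mul, mul_comm e, pow_mul]
    have : (ζ : Qb) ^ (e + 1) = 1 := congrArg Subtype.val hζ
    rw [this, one_pow, map_one, one_mul]
  obtain ⟨t, ht⟩ := hm' A hA a'' b ha''mem hb hρa'' hb' (by
    intro P
    rw [hs''eq]
    have h1 := hdiv P
    rw [← hs''pow] at h1
    have h2 : P.ord (s'' ^ (e + 1)) = ((e + 1 : ℕ) : ℤ) * P.ord s'' := by
      rw [← zpow_natCast, P.ord_zpow]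
    rw [h2] at h1
    push_cast at h1
    exact (mul_dvd_mul_iff_left (by positivity)).mp h1)
  refine ⟨t, ?_⟩
  rw [mul_comm, pow_mul, ht, hs''eq, hs''pow]

/-- CRUX for exponent `1`. -/
theorem crux1_one (Q : QField) (ℓ : ℕ) : Crux1 Q ℓ 1 := by
  intro A hA y₁ y₂ h₁ h₂ hred hne hdiv
  exact ⟨_, pow_one _⟩

/-- CRUX for prime powers from CRUX for the prime. -/
theorem crux1_pow (Q : QField) (ℓ p : ℕ) (hp0 : p ≠ 0) (h : Crux1 Q ℓ p) (k : ℕ) :
    Crux1 Q ℓ (p ^ k) := by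
  induction k with
  | zero => rw [pow_zero]; exact crux1_one Q ℓ
  | succ k ih => rw [pow_succ']; exact crux1_mul Q ℓ p (p ^ k) hp0 h ih

end

end Fermat.Agent.S43.CH
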