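import Fermat.Agent.S43.CH.Crux
import Fermat.Agent.S43.CH.Cyc

/-!
# S43 / CH / Main : the Cayley-Hamilton structure on the Kummer module of a `QField` with `HeckeData`

`tOp H n g x = g x + χ_n(g) ⟨χ_N(g)⟩ g⁻¹ x` on `Kum Qb Q.F n`  (`χ_m = cyc m` the cyclotomic character mod `m`).

* `lucas_mem`      : `F G = G F ∈ C`, `F + G ∈ C`  ⟹  `F ^ j + G ^ j ∈ C`  (`C` a subring);
* `tOp_galKum`     : **(CH)** `tOp H n g` commutes with the action of `G_ℚ`
                     (Eichler-Shimura `S48.B1.eichlerShimura_Kum` + Frobenius density `FD.exists_frobenius_of_finiteLevel`);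
* `tOp_diaKum`     : `tOp H n g` commutes with the diamond operators.
-/

set_option autoImplicit false

open AlgebraicCurve ModularCurve

namespace Fermat.Agent.S43.CH

open Fermat.Agent.ES Fermat.Agent.S48.B1

/-- Lucas sequences: power sums of two commuting elements with sum and product in a subring. -/
theorem lucas_mem {R : Type*} [Ring R] (C : Subring R) (F G : R) (hFG : F * G ∈ C)
    (hGF : G * F = F * G) (hsum : F + G ∈ C) (j : ℕ) : F ^ j + G ^ j ∈ C := by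
  induction j using Nat.twoStepInduction with
  | zero => simpa using C.add_mem C.one_mem C.one_mem
  | one => simpa using hsum
  | more j h0 h1 =>
    have e : F ^ (j + 2) + G ^ (j + 2)
        = (F + G) * (F ^ (j + 1) + G ^ (j + 1)) - (F * G) * (F ^ j + G ^ j) := by
      have e1 : F * G ^ (j + 1) = (F * G) * G ^ j := by rw [pow_succ', mul_assoc]
      have e2 : G * F ^ (j + 1) = (F * G) * F ^ j := by rw [pow_succ', ← mul_assoc, hGF]
      have e3 : F * F ^ (j + 1) = F ^ (j + 2) := (pow_succ' F (j + 1)).symm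
      have e4 : G * G ^ (j + 1) = G ^ (j + 2) := (pow_succ' G (j + 1)).symm
      rw [add_mul, mul_add, mul_add, e1, e2, e3, e4, mul_add]
      abel
    rw [e]
    exact C.sub_mem (C.mul_mem hsum h1) (C.mul_mem hFG h0)

noncomputable section

variable {Q : QField} {N : ℕ} [NeZero N] (H : HeckeData Q N) (n : ℕ) [NeZero n]

/-- `t(g) = g + χ_n(g) ⟨χ_N(g)⟩ g⁻¹` on the Kummer module of exponent `n`. -/
def tOp (g : GQ) (x : Kum Qb Q.F n) : Kum Qb Q.F n :=
  galKum Q n g x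
    + (((cyc n g : (ZMod n)ˣ) : ZMod n)).val • diaKum H n (cyc N g) (galKum Q n g⁻¹ x)

theorem finiteLevel_galRepZ [Finite (Kum Qb Q.F n)] :
    GaloisFactorsThroughFiniteLevel (galRepZ Q n) := by
  choose L hL hfix using (galKum_smooth (Q := Q) (m := n))
  refine ⟨⨆ x, L x, inferInstance, fun σ hσ => ?_⟩
  ext x
  exact hfix x σ fun y hy => hσ y (le_iSup L x hy)

theorem val_nsmul_eq {a : ZMod n} {b : ℕ} (h : a = (b : ZMod n)) (y : Kum Qb Q.F n) :
    a.val • y = b • y := by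
  rw [← Nat.cast_smul_eq_nsmul (ZMod n) a.val y, ← Nat.cast_smul_eq_nsmul (ZMod n) b y,
    ZMod.natCast_zmod_val, h]

/-- `tOp` is given by an element of the centraliser of the Galois action. -/
theorem exists_central (hD : H.PreservesDm n)
    (hcrux : ∀ ℓ : ℕ, ℓ.Prime → ¬ ℓ ∣ N → ¬ ℓ ∣ n → Crux1 Q ℓ n)
    [Finite (Kum Qb Q.F n)] (g : GQ) :
    ∃ Z ∈ Subring.centralizer (Set.range (galRepZ Q n)), ∀ x, tOp H n g x = Z x := by
  have hn : n ≠ 0 := NeZero.ne n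
  have hN : N ≠ 0 := NeZero.ne N
  obtain ⟨ℓ, A, φ, hℓ, hℓT, hA, hφ, -, -, ⟨j, hj⟩⟩ :=
    Fermat.Agent.FD.exists_frobenius_of_finiteLevel
      ((galRepZ Q n).prod ((cyc n).prod (cyc N)))
      (Fermat.Agent.FD.factorsThroughFiniteLevel_prod _ _ (finiteLevel_galRepZ n)
        (Fermat.Agent.FD.factorsThroughFiniteLevel_prod _ _ (cyc_finiteLevel n)
          (cyc_finiteLevel N))) g (N * n).primeFactors
  have hℓN : ¬ ℓ ∣ N := fun h =>
    hℓT (Nat.mem_primeFactors.2 ⟨hℓ, h.mul_right n, mul_ne_zero hN hn⟩)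
  have hℓn : ¬ ℓ ∣ n := fun h =>
    hℓT (Nat.mem_primeFactors.2 ⟨hℓ, h.mul_left N, mul_ne_zero hN hn⟩)
  have e1 : galRepZ Q n g = galRepZ Q n φ ^ j := congrArg Prod.fst hj
  have e2 : cyc n g = cyc n φ ^ j := congrArg (fun z => z.2.1) hj
  have e3 : cyc N g = cyc N φ ^ j := congrArg (fun z => z.2.2) hj
  let P : D.GoodPrime N := ⟨ℓ, hℓ, hℓN⟩
  have e4 : cyc N φ = gpUnit P := Units.ext (cyc_frob N hℓ hℓN A hA φ hφ)
  have e5 : ((cyc n g : (ZMod n)ˣ) : ZMod n) = ((ℓ ^ j : ℕ) : ZMod n) := by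
    rw [e2, Units.val_pow_eq_pow_val, cyc_frob n hℓ hℓn A hA φ hφ, Nat.cast_pow]
  set ρ := galRepZ Q n with hρ
  set d : Module.End ℤ (Kum Qb Q.F n) := diaRepZ H n (gpUnit P) with hd
  set C := Subring.centralizer (Set.range ρ) with hC
  have hinv1 : ρ φ * ρ φ⁻¹ = 1 := by rw [← map_mul, mul_inv_cancel, map_one]
  have hinv2 : ρ φ⁻¹ * ρ φ = 1 := by rw [← map_mul, inv_mul_cancel, map_one]
  have hdρ : ∀ h : GQ, ρ h * d = d * ρ h := fun h => LinearMap.ext fun x =>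
    (diaKum_galKum H (gpUnit P) h x).symm
  set Dd : Module.End ℤ (Kum Qb Q.F n) := (ℓ : ℤ) • d with hDd
  have hDρ : ∀ h : GQ, ρ h * Dd = Dd * ρ h := fun h => by
    rw [hDd, mul_smul_comm, smul_mul_assoc, hdρ]
  have hDC : Dd ∈ C := by
    rw [hC, Subring.mem_centralizer_iff]
    rintro _ ⟨h, rfl⟩
    exact hDρ h
  have hTC : (heckeKum H hD P).toIntLinearMap ∈ C := by
    rw [hC, Subring.mem_centralizer_iff]
    rintro _ ⟨h, rfl⟩
    exact LinearMap.ext fun x => galKum_heckeKum H hD h P x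
  set F := ρ φ with hF
  set G := Dd * ρ φ⁻¹ with hG
  have hFG : F * G = Dd := by
    rw [hG, ← mul_assoc, hDρ φ, mul_assoc, hinv1, mul_one]
  have hGF : G * F = Dd := by
    rw [hG, mul_assoc, hinv2, mul_one]
  have hsum : F + G = (heckeKum H hD P).toIntLinearMap := by
    ext y
    have h := eichlerShimura_Kum H hD hn P (hcrux ℓ hℓ hℓN hℓn) A hA φ hφ (galKum Q n φ⁻¹ y)
    have h1 : galKum Q n φ (galKum Q n φ⁻¹ y) = y := by
      rw [← galKum_mul, mul_inv_cancel, galKum_one]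
    rw [h1] at h
    have h2 : (F + G) y = galKum Q n φ y + ℓ • diaKum H n (gpUnit P) (galKum Q n φ⁻¹ y) := by
      show galKum Q n φ y + ((ℓ : ℤ) • d) (galKum Q n φ⁻¹ y) = _
      rw [LinearMap.smul_apply, natCast_zsmul]
      rfl
    rw [h2, AddMonoidHom.coe_toIntLinearMap]
    have h3 : galKum Q n φ y - heckeKum H hD P y
      + ℓ • diaKum H n (gpUnit P) (galKum Q n φ⁻¹ y) = 0 := h
    rw [← sub_eq_zero, ← h3]
    abel
  refine ⟨F ^ j + G ^ j, lucas_mem C F G (hFG ▸ hDC) (hGF.trans hFG.symm) (hsum ▸ hTC) j,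
    fun x => ?_⟩
  -- identification
  have hg' : ρ g⁻¹ = ρ φ⁻¹ ^ j := by
    have a1 : ρ g * ρ φ⁻¹ ^ j = 1 := by
      rw [e1, ← map_pow, ← map_pow, ← map_mul, inv_pow, mul_inv_cancel, map_one]
    calc ρ g⁻¹ = ρ g⁻¹ * (ρ g * ρ φ⁻¹ ^ j) := by rw [a1, mul_one]
      _ = ρ φ⁻¹ ^ j := by rw [← mul_assoc, ← map_mul, inv_mul_cancel, map_one, one_mul]
  have hGj : G ^ j = ((ℓ ^ j : ℕ) : ℤ) • (d ^ j * ρ φ⁻¹ ^ j) := by
    have hc : Commute Dd (ρ φ⁻¹) := (hDρ φ⁻¹).symm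
    rw [hG, hc.mul_pow, hDd, smul_pow, smul_mul_assoc, Nat.cast_pow]
  have hdj : diaRepZ H n (cyc N g) = d ^ j := by rw [e3, e4, map_pow]
  rw [tOp, val_nsmul_eq n e5, LinearMap.add_apply, hGj, LinearMap.smul_apply, natCast_zsmul,
    Module.End.mul_apply, ← hg', ← hdj, ← e1]
  rfl

/-- **(CH)**: `t(g)` commutes with the Galois action. -/
theorem tOp_galKum (hD : H.PreservesDm n)
    (hcrux : ∀ ℓ : ℕ, ℓ.Prime → ¬ ℓ ∣ N → ¬ ℓ ∣ n → Crux1 Q ℓ n)
    [Finite (Kum Qb Q.F n)] (g h : GQ) (x : Kum Qb Q.F n) :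
    galKum Q n h (tOp H n g x) = tOp H n g (galKum Q n h x) := by
  obtain ⟨Z, hZ, hZx⟩ := exists_central H n hD hcrux g
  rw [hZx, hZx]
  have := (Subring.mem_centralizer_iff.1 hZ) (galRepZ Q n h) ⟨h, rfl⟩
  exact congrArg (fun f : Module.End ℤ (Kum Qb Q.F n) => f x) this

/-- `t(g)` is additive. -/
theorem tOp_add (g : GQ) (x y : Kum Qb Q.F n) : tOp H n g (x + y) = tOp H n g x + tOp H n g y := by
  simp only [tOp, map_add, smul_add]
  abel

/-- `t(g)` commutes with the diamond operators. -/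
theorem tOp_diaKum (g : GQ) (c : (ZMod N)ˣ) (x : Kum Qb Q.F n) :
    diaKum H n c (tOp H n g x) = tOp H n g (diaKum H n c x) := by
  simp only [tOp, map_add, map_nsmul]
  rw [diaKum_galKum, diaKum_comm, diaKum_galKum]

end

end Fermat.Agent.S43.CH
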