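import Fermat.Agent.S43.CH.F1
import Fermat.Agent.S43.R0.UOp
import Fermat.Agent.S43.Fin.Cyc

/-!
# S43 / CH / Tower : the three Cayley-Hamilton operators of the tower block, elementwise, on `KK`

`KK = B1.Kum Qb (F1Q N).F (p ^ a)`, Hecke data `R0.HD hN`, `A ∣ q`, `q ≠ p`, `σ ∈ I_A`, `Φ` a Frobenius at `A`, `dl = ⟨χ_N(σ)⟩`.

* `HH_eq_HD`     : `CH.HH N hN = R0.HD hN`;
* `unitsMap_cyc` : `ZMod.unitsMap (n ∣ N) (cyc N g) = cyc n g`;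
* `ch_KK`        : (CH) with `R0.HD hN`, unfolded;
* `tS_KK`        : `σ + dl σ⁻¹` commutes with `G_ℚ` on `KK`;
* `tF_KK`        : `Φ + q Φ⁻¹` commutes with `G_ℚ` on the classes fixed by `⟨χ_N(Φ)⟩`;
* `tSF_KK`       : `σ Φ + dl q Φ⁻¹ σ⁻¹` commutes with `G_ℚ` on the classes fixed by `⟨χ_N(Φ)⟩`.
-/

set_option autoImplicit false

open AlgebraicCurve ModularCurve

namespace Fermat.Agent.S43.CH

open Fermat.Agent.ES Fermat.Agent.S48 Fermat.Agent.S48.B1 Fermat.Agent.S48.X1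

noncomputable section

theorem unitsMap_cyc {n N : ℕ} [NeZero n] [NeZero N] (h : n ∣ N) (g : GQ) :
    ZMod.unitsMap h (cyc N g) = cyc n g := by
  apply Units.ext
  rw [ZMod.unitsMap_val]
  symm
  have h1 := cyc_eq_of n g (((cyc N g : (ZMod N)ˣ) : ZMod N)).val (fun z hz => by
    obtain ⟨k, rfl⟩ := h
    exact cyc_spec (n * k) g z (by rw [pow_mul, hz, one_pow]))
  rw [h1, ZMod.natCast_val]

theorem diaKum_mul' {Q : QField} {M : ℕ} (H : HeckeData Q M) (m : ℕ) (d d' : (ZMod M)ˣ)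
    (x : Kum Qb Q.F m) : diaKum H m (d * d') x = diaKum H m d (diaKum H m d' x) :=
  congrArg (fun e => e x) (map_mul (diaRepZ H m) d d')

variable (N : ℕ) [NeZero N] (hN : 5 ≤ N)

theorem HH_eq_HD : HH N hN = R0.HD hN := rfl

variable {p : ℕ} (hp : p.Prime) {a : ℕ} (ha : a ≠ 0)

include hp ha

/-- (CH) on `KK`, unfolded, with `R0.HD hN`. -/
theorem ch_KK [NeZero (p ^ a)] (g h : GQ) (x : Kum Qb (F1Q N).F (p ^ a)) :
    galKum (F1Q N) (p ^ a) h (galKum (F1Q N) (p ^ a) g x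
        + (((cyc (p ^ a) g : (ZMod (p ^ a))ˣ) : ZMod (p ^ a))).val •
          diaKum (R0.HD hN) (p ^ a) (cyc N g) (galKum (F1Q N) (p ^ a) g⁻¹ x))
      = galKum (F1Q N) (p ^ a) g (galKum (F1Q N) (p ^ a) h x)
        + (((cyc (p ^ a) g : (ZMod (p ^ a))ˣ) : ZMod (p ^ a))).val •
          diaKum (R0.HD hN) (p ^ a) (cyc N g)
            (galKum (F1Q N) (p ^ a) g⁻¹ (galKum (F1Q N) (p ^ a) h x)) :=
  ch_F1 N hN hp ha g h x

variable {q : ℕ} (hq : q.Prime) (hqp : q ≠ p) (A : ValuationSubring Qb) (hA : A.LiesOverPrime q)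

include hq hqp hA

theorem not_dvd_pow_aux : ¬ q ∣ p ^ a := fun h =>
  hqp ((Nat.prime_dvd_prime_iff_eq hq hp).1 (hq.dvd_of_dvd_pow h))

/-- `σ + ⟨χ_N σ⟩ σ⁻¹` commutes with `G_ℚ` (`σ ∈ I_A`). -/
theorem tS_KK (σ : GQ) (hσ : σ ∈ A.inertiaSubgroupIn ℚ) (g : GQ)
    (x : Kum Qb (F1Q N).F (p ^ a)) :
    galKum (F1Q N) (p ^ a) g (galKum (F1Q N) (p ^ a) σ x
        + diaKum (R0.HD hN) (p ^ a) (cyc N σ) (galKum (F1Q N) (p ^ a) σ⁻¹ x))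
      = galKum (F1Q N) (p ^ a) σ (galKum (F1Q N) (p ^ a) g x)
        + diaKum (R0.HD hN) (p ^ a) (cyc N σ)
            (galKum (F1Q N) (p ^ a) σ⁻¹ (galKum (F1Q N) (p ^ a) g x)) := by
  haveI : NeZero (p ^ a) := ⟨(pow_pos hp.pos a).ne'⟩
  have h := ch_KK N hN hp ha σ g x
  have e : ((cyc (p ^ a) σ : (ZMod (p ^ a))ˣ) : ZMod (p ^ a)) = ((1 : ℕ) : ZMod (p ^ a)) := by
    rw [Fin.cyc_inertia_val (p ^ a) hq (not_dvd_pow_aux hp ha hq hqp A hA) A hA σ hσ, Nat.cast_one]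
  rw [val_nsmul_eq (p ^ a) e, val_nsmul_eq (p ^ a) e, one_smul, one_smul] at h
  exact h

/-- `Φ + q Φ⁻¹` commutes with `G_ℚ` on the classes fixed by `⟨χ_N Φ⟩`. -/
theorem tF_KK (Φ : GQ) (hΦ : A.IsFrobeniusAt Φ q) (g : GQ) (x : Kum Qb (F1Q N).F (p ^ a))
    (hx : diaKum (R0.HD hN) (p ^ a) (cyc N Φ) x = x) :
    galKum (F1Q N) (p ^ a) g (galKum (F1Q N) (p ^ a) Φ x + q • galKum (F1Q N) (p ^ a) Φ⁻¹ x)
      = galKum (F1Q N) (p ^ a) Φ (galKum (F1Q N) (p ^ a) g x)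
        + q • galKum (F1Q N) (p ^ a) Φ⁻¹ (galKum (F1Q N) (p ^ a) g x) := by
  haveI : NeZero (p ^ a) := ⟨(pow_pos hp.pos a).ne'⟩
  have h := ch_KK N hN hp ha Φ g x
  have e := Fin.cyc_frobenius (p ^ a) hq (not_dvd_pow_aux hp ha hq hqp A hA) A hA Φ hΦ
  rw [val_nsmul_eq (p ^ a) e, val_nsmul_eq (p ^ a) e, diaKum_galKum, diaKum_galKum,
    diaKum_galKum, hx] at h
  exact h

/-- `σ Φ + ⟨χ_N σ⟩ q Φ⁻¹ σ⁻¹` commutes with `G_ℚ` on the classes fixed by `⟨χ_N Φ⟩`. -/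
theorem tSF_KK (σ : GQ) (hσ : σ ∈ A.inertiaSubgroupIn ℚ) (Φ : GQ) (hΦ : A.IsFrobeniusAt Φ q)
    (g : GQ) (x : Kum Qb (F1Q N).F (p ^ a))
    (hx : diaKum (R0.HD hN) (p ^ a) (cyc N Φ) x = x) :
    galKum (F1Q N) (p ^ a) g (galKum (F1Q N) (p ^ a) σ (galKum (F1Q N) (p ^ a) Φ x)
        + diaKum (R0.HD hN) (p ^ a) (cyc N σ)
            (q • galKum (F1Q N) (p ^ a) Φ⁻¹ (galKum (F1Q N) (p ^ a) σ⁻¹ x)))
      = galKum (F1Q N) (p ^ a) σ (galKum (F1Q N) (p ^ a) Φ (galKum (F1Q N) (p ^ a) g x))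
        + diaKum (R0.HD hN) (p ^ a) (cyc N σ)
            (q • galKum (F1Q N) (p ^ a) Φ⁻¹
              (galKum (F1Q N) (p ^ a) σ⁻¹ (galKum (F1Q N) (p ^ a) g x))) := by
  haveI : NeZero (p ^ a) := ⟨(pow_pos hp.pos a).ne'⟩
  have h := ch_KK N hN hp ha (σ * Φ) g x
  have e : ((cyc (p ^ a) (σ * Φ) : (ZMod (p ^ a))ˣ) : ZMod (p ^ a)) = (q : ZMod (p ^ a)) := by
    rw [map_mul, Units.val_mul,
      Fin.cyc_inertia_val (p ^ a) hq (not_dvd_pow_aux hp ha hq hqp A hA) A hA σ hσ, one_mul,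
      Fin.cyc_frobenius (p ^ a) hq (not_dvd_pow_aux hp ha hq hqp A hA) A hA Φ hΦ]
  have hd : ∀ y : Kum Qb (F1Q N).F (p ^ a), diaKum (R0.HD hN) (p ^ a) (cyc N Φ) y = y →
      diaKum (R0.HD hN) (p ^ a) (cyc N (σ * Φ)) (galKum (F1Q N) (p ^ a) (σ * Φ)⁻¹ y)
        = diaKum (R0.HD hN) (p ^ a) (cyc N σ)
            (galKum (F1Q N) (p ^ a) Φ⁻¹ (galKum (F1Q N) (p ^ a) σ⁻¹ y)) := by
    intro y hy
    rw [map_mul, diaKum_mul', mul_inv_rev, galKum_mul, diaKum_galKum (R0.HD hN) (cyc N Φ),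
      diaKum_galKum (R0.HD hN) (cyc N Φ), hy]
  have hgx : diaKum (R0.HD hN) (p ^ a) (cyc N Φ) (galKum (F1Q N) (p ^ a) g x)
      = galKum (F1Q N) (p ^ a) g x := by rw [diaKum_galKum, hx]
  rw [val_nsmul_eq (p ^ a) e, val_nsmul_eq (p ^ a) e, hd x hx, hd _ hgx, galKum_mul, galKum_mul] at h
  rw [map_nsmul, map_nsmul]
  exact h

end

end Fermat.Agent.S43.CH
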