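import Fermat.Agent.S43.CH.Main
import Fermat.Agent.S31.Glue
import Fermat.Agent.Crux.Main
import Fermat.Agent.ES.Glue.Iota

/-!
# S43 / CH / X0 : the Cayley-Hamilton structure on `ES.Kum N m`  (level `Γ₀(N)`, ANY exponent `m ≠ 0`)

`tX N m g x = g x + χ_m(g) g⁻¹ x`   (`χ_m = cyc m`).

* `tX_galKum`  : **(CH)** `tX N m g` commutes with the action of `G_ℚ`;
* `tX_heckeKum`: it commutes with the Hecke operators;
* `dX`, `tX_eq`, `dX_mul` : the `ℤ`-valued form `d g = (cyc m g).val` used by `Alg.dprime`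
  (`TT r d g x = r g x + d g • r g⁻¹ x`, `d (g h) • x = (d g * d h) • x`);
* `dX_of_inertia`, `dX_frob` : `d σ • x = x` for `σ` in an inertia group at `q ∤ m`, `d φ • x = q • x` for a Frobenius.
-/

set_option autoImplicit false

open AlgebraicCurve ModularCurve

namespace Fermat.Agent.S43.CH

open Fermat.Agent.ES

noncomputable section

variable (N : ℕ) [NeZero N] (m : ℕ) [NeZero m]

/-- `t(g) = g + χ_m(g) g⁻¹` on `ES.Kum N m`. -/
def tX (g : GQ) (x : Kum N m) : Kum N m :=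
  galKum N m g x + (((cyc m g : (ZMod m)ˣ) : ZMod m)).val • galKum N m g⁻¹ x

theorem val_nsmul_eqX {a : ZMod m} {b : ℕ} (h : a = (b : ZMod m)) (y : Kum N m) :
    a.val • y = b • y := by
  rw [← Nat.cast_smul_eq_nsmul (ZMod m) a.val y, ← Nat.cast_smul_eq_nsmul (ZMod m) b y,
    ZMod.natCast_zmod_val, h]

/-- `tX` is given by an element of the centraliser of the Galois action. -/
theorem exists_centralX (g : GQ) :
    ∃ Z ∈ Subring.centralizer (Set.range (Fermat.Agent.S31.galEnd N m)),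
      (∀ x, tX N m g x = Z x) ∧
      ∀ (ℓ' : ℕ) [NeZero ℓ'] (hℓ' : ℓ'.Prime) (hℓ'N : ¬ ℓ' ∣ N) (x : Kum N m),
        heckeKum N ℓ' hℓ' hℓ'N m (tX N m g x) = tX N m g (heckeKum N ℓ' hℓ' hℓ'N m x) := by
  have hm : m ≠ 0 := NeZero.ne m
  have hN : N ≠ 0 := NeZero.ne N
  have : Finite (Kum N m) := Fermat.Agent.ES.Glue.finite_Kum (Nat.pos_of_ne_zero hm)
  obtain ⟨ℓ, A, φ, hℓ, hℓT, hA, hφ, -, -, ⟨j, hj⟩⟩ :=
    Fermat.Agent.FD.exists_frobenius_of_finiteLevel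
      ((Fermat.Agent.S31.galEnd N m).prod (cyc m))
      (Fermat.Agent.FD.factorsThroughFiniteLevel_prod _ _
        (Fermat.Agent.S31.finiteLevel_of_smooth (Fermat.Agent.S31.galEnd N m) (galKum_smooth N m))
        (cyc_finiteLevel m)) g (N * m).primeFactors
  have hℓN : ¬ ℓ ∣ N := fun h =>
    hℓT (Nat.mem_primeFactors.2 ⟨hℓ, h.mul_right m, mul_ne_zero hN hm⟩)
  have hℓm : ¬ ℓ ∣ m := fun h =>
    hℓT (Nat.mem_primeFactors.2 ⟨hℓ, h.mul_left N, mul_ne_zero hN hm⟩)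
  have : NeZero ℓ := ⟨hℓ.ne_zero⟩
  set ρ := Fermat.Agent.S31.galEnd N m with hρ
  have e1 : ρ g = ρ φ ^ j := congrArg Prod.fst hj
  have e2 : cyc m g = cyc m φ ^ j := congrArg Prod.snd hj
  have e5 : ((cyc m g : (ZMod m)ˣ) : ZMod m) = ((ℓ ^ j : ℕ) : ZMod m) := by
    rw [e2, Units.val_pow_eq_pow_val, cyc_frob m hℓ hℓm A hA φ hφ, Nat.cast_pow]
  set C := Subring.centralizer (Set.range ρ) with hC
  have hinv1 : ρ φ * ρ φ⁻¹ = 1 := by rw [← map_mul, mul_inv_cancel, map_one]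
  have hinv2 : ρ φ⁻¹ * ρ φ = 1 := by rw [← map_mul, inv_mul_cancel, map_one]
  set Dd : AddMonoid.End (Kum N m) := ((ℓ : ℕ) : AddMonoid.End (Kum N m)) with hDd
  have hDC : Dd ∈ C := natCast_mem C ℓ
  have hDρ : ∀ h : GQ, ρ h * Dd = Dd * ρ h := fun h => (Nat.cast_commute ℓ (ρ h)).symm.eq
  set T : AddMonoid.End (Kum N m) := heckeKum N ℓ hℓ hℓN m with hT
  have hTC : T ∈ C := by
    rw [hC, Subring.mem_centralizer_iff]
    rintro _ ⟨h, rfl⟩
    exact AddMonoidHom.ext fun x => galKum_heckeKum N ℓ hℓ hℓN h x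
  set F := ρ φ with hF
  set G := Dd * ρ φ⁻¹ with hG
  have hFG : F * G = Dd := by
    rw [hG, ← mul_assoc, hDρ φ, mul_assoc, hinv1, mul_one]
  have hGF : G * F = Dd := by
    rw [hG, mul_assoc, hinv2, mul_one]
  have hDapp : ∀ y : Kum N m, Dd y = ℓ • y := fun y => by
    rw [hDd]
    exact AddMonoid.End.natCast_apply ℓ y
  have hsum : F + G = T := by
    ext y
    have h := eichlerShimura_Kum hm hℓ hℓN (Fermat.Agent.Crux.crux N ℓ m hℓ hℓN hℓm) A hA φ hφ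
      (galKum N m φ⁻¹ y)
    have h1 : galKum N m φ (galKum N m φ⁻¹ y) = y := by
      rw [← galKum_mul, mul_inv_cancel, galKum_one]
    rw [h1] at h
    have h2 : (F + G) y = galKum N m φ y + ℓ • galKum N m φ⁻¹ y := by
      show galKum N m φ y + Dd (galKum N m φ⁻¹ y) = _
      rw [hDapp]
    rw [h2]
    show _ = heckeKum N ℓ hℓ hℓN m y
    rw [← sub_eq_zero, ← h]
    abel
  have hg' : ρ g⁻¹ = ρ φ⁻¹ ^ j := by
    have a1 : ρ g * ρ φ⁻¹ ^ j = 1 := by
      rw [e1, ← map_pow, ← map_pow, ← map_mul, inv_pow, mul_inv_cancel, map_one]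
    calc ρ g⁻¹ = ρ g⁻¹ * (ρ g * ρ φ⁻¹ ^ j) := by rw [a1, mul_one]
      _ = ρ φ⁻¹ ^ j := by rw [← mul_assoc, ← map_mul, inv_mul_cancel, map_one, one_mul]
  have hGj : G ^ j = ((ℓ ^ j : ℕ) : AddMonoid.End (Kum N m)) * ρ φ⁻¹ ^ j := by
    have hc : Commute Dd (ρ φ⁻¹) := (hDρ φ⁻¹).symm
    rw [hG, hc.mul_pow, hDd, Nat.cast_pow]
  refine ⟨F ^ j + G ^ j, lucas_mem C F G (hFG ▸ hDC) (hGF.trans hFG.symm) (hsum ▸ hTC) j,
    fun x => ?_, fun ℓ' _ hℓ' hℓ'N x => ?_⟩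
  · rw [tX, val_nsmul_eqX N m e5, hGj, ← hg', ← e1]
    show _ = galKum N m g x + ((ℓ ^ j : ℕ) : AddMonoid.End (Kum N m)) (galKum N m g⁻¹ x)
    rw [AddMonoid.End.natCast_apply]
  · simp only [tX, map_add, map_nsmul, galKum_heckeKum]

/-- **(CH)**: `t(g)` commutes with the Galois action on `ES.Kum N m`. -/
theorem tX_galKum (g h : GQ) (x : Kum N m) :
    galKum N m h (tX N m g x) = tX N m g (galKum N m h x) := by
  obtain ⟨Z, hZ, hZx, -⟩ := exists_centralX N m g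
  rw [hZx, hZx]
  have := (Subring.mem_centralizer_iff.1 hZ) (Fermat.Agent.S31.galEnd N m h) ⟨h, rfl⟩
  exact congrArg (fun f : AddMonoid.End (Kum N m) => f x) this

/-- `t(g)` commutes with the Hecke operators. -/
theorem tX_heckeKum (g : GQ) (ℓ : ℕ) [NeZero ℓ] (hℓ : ℓ.Prime) (hℓN : ¬ ℓ ∣ N) (x : Kum N m) :
    heckeKum N ℓ hℓ hℓN m (tX N m g x) = tX N m g (heckeKum N ℓ hℓ hℓN m x) := by
  simp only [tX, map_add, map_nsmul, galKum_heckeKum]

theorem tX_add (g : GQ) (x y : Kum N m) : tX N m g (x + y) = tX N m g x + tX N m g y := by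
  simp only [tX, map_add, smul_add]
  abel

/-- the `ℤ`-valued determinant. -/
def dX (g : GQ) : ℤ := ((((cyc m g : (ZMod m)ˣ) : ZMod m)).val : ℤ)

theorem tX_eq (g : GQ) (x : Kum N m) :
    tX N m g x = galKum N m g x + dX m g • galKum N m g⁻¹ x := by
  rw [tX, dX, natCast_zsmul]

theorem dX_smul_eq {g : GQ} {b : ℕ} (h : ((cyc m g : (ZMod m)ˣ) : ZMod m) = (b : ZMod m))
    (x : Kum N m) : dX m g • x = b • x := by
  rw [dX, natCast_zsmul]
  exact val_nsmul_eqX N m h x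

theorem dX_mul (g h : GQ) (x : Kum N m) : dX m (g * h) • x = (dX m g * dX m h) • x := by
  have e : ((cyc m (g * h) : (ZMod m)ˣ) : ZMod m)
      = (((((cyc m g : (ZMod m)ˣ) : ZMod m)).val * (((cyc m h : (ZMod m)ˣ) : ZMod m)).val : ℕ)
          : ZMod m) := by
    rw [map_mul, Units.val_mul, Nat.cast_mul, ZMod.natCast_zmod_val, ZMod.natCast_zmod_val]
  rw [dX_smul_eq N m e, dX, dX, ← Nat.cast_mul, natCast_zsmul]

/-- a Frobenius element at `q ∤ m` has determinant `q`. -/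
theorem dX_frob {q : ℕ} (hq : q.Prime) (hqm : ¬ q ∣ m) (A : ValuationSubring Qb)
    (hA : A.LiesOverPrime q) (φ : GQ) (hφ : A.IsFrobeniusAt φ q) (x : Kum N m) :
    dX m φ • x = q • x :=
  dX_smul_eq N m (cyc_frob m hq hqm A hA φ hφ) x

/-- an element of an inertia group at `q ∤ m` has determinant `1`. -/
theorem dX_of_inertia {q : ℕ} (hq : q.Prime) (hqm : ¬ q ∣ m) (A : ValuationSubring Qb)
    (hA : A.LiesOverPrime q) (σ : GQ) (hσ : σ ∈ A.inertiaSubgroupIn ℚ) (x : Kum N m) :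
    dX m σ • x = x := by
  have h : ((cyc m σ : (ZMod m)ˣ) : ZMod m) = ((1 : ℕ) : ZMod m) :=
    cyc_eq_of m σ 1 fun z hz => by
      rw [pow_one]
      exact Fermat.Agent.S31.inertia_apply_root A hq hA σ hσ hqm hz
  rw [dX_smul_eq N m h, one_smul]

end

end Fermat.Agent.S43.CH
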